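import Mathlib
import Fermat.Agent.LT.T7.H484.PairAQSpec
import Fermat.Agent.LT.T7.B981.H503.StepS
import Fermat.Agent.LT.T7.H546.SetupQCore
import Fermat.Agent.LT.T7.H644.UnramQ

/-!
# Row LT, tower T7, node T7.L2Q.1.H2a.A.2 `PQ484.StepSQC484` (registry row 2956, helper846)

OFF-MAIN.  Complete proofs, nothing assumed.

    stepSQC846 (F) : PQ484.StepSQC484 F              (VERBATIM, UNCONDITIONAL)

PORT over `ℚ` (`ℓ = 2`, TWO types downstairs) of the closed cubic node `B981.StepSC981`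
(`B981.SS503.stepSC503`, helper503): `x = S_w^{± 1}`, `w ∉ S'`; `v` the prime under `w`, `fr`
the residue degree; `z'` a scalar uniformiser at `w`, `z` a scalar uniformiser at `v`:

    φ' = φ(· z'^{∓ 1}),      f' t = f t (· z^{∓ fr})        (both types `t`).

New with respect to the cubic step: (1) right translation by a power of a scalar uniformiser
preserves test functions of EVERY `K_∞`-type (`trTestTy846`); (2) the pure tensors over `ℚ`
(`MQ298.pureQ298`, one real component) are shifted as the pure tensors `pure305`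
(`pureShiftQ846`); (3) `IsBCDataQ` is stated with the prime number `p` under `w`
(`absNorm_eq_prime846`).  The leaves of the cubic step (`UnifC503`, `TrEKC503`, `TrSuppC503`,
`TrOpC503`, `PlacesC503`, `SphShiftC503`, `UnitSphC503`, `PureShiftC503`) are statements over
one number field or over a general extension, and are used as they are; `SS503.sphOut_new503`
is used as it is (`K = ℚ`, `K' = F`, `ℓ = 2`).  Unramifiedness outside `S'`:
`H644.unramQC644`; `IsCycExt ℚ F 2`: `H546.isCycExt_of_isImagQuad546c`.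

No definition of another file is unfolded by `unfold` / `simp` / `rw` (only `show`, `rfl`,
`if_pos` / `if_neg` and projections).
-/

set_option autoImplicit false

open AutomorphicForm IsDedekindDomain NumberField MeasureTheory
open scoped ComplexConjugate

noncomputable section

namespace Fermat.Agent.LT.T7.H846Q

open Fermat.Agent.LT.H556 Fermat.Agent.LT.H556.A0 Fermat.Agent.LT.T7 Fermat.Agent.LT.T7.H305
  Fermat.Agent.LT.T7.L2Q Fermat.Agent.LT.T7.H893 Fermat.Agent.LT.T7.H962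
  Fermat.Agent.LT.T7.H732 Fermat.Agent.LT.T7.MQ298 Fermat.Agent.LT.T7.CQ801
  Fermat.Agent.LT.T7.PQ484 Fermat.Agent.LT.T7.B981.SS503

attribute [local instance] Fermat.Agent.LT.T5.instMeasurableSpaceG

/-! ## 1. Test functions of every type -/

section TrTest

variable {K : Type} [Field K] [NumberField K]

/-- **TR-TEST for every `K_∞`-type** (the proof of `B981.H519.trTestC519`). -/
theorem trTestTy846 (𝔫 : Ideal (𝓞 K)) (τ : G K → ℂ) {v : HeightOneSpectrum (𝓞 K)} {z : G K}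
    (hz : IsScalarUniformizerAt v z) (t : ℤ) {φ : G K → ℂ} (hφ : T5.IsTestFn 𝔫 τ φ) :
    T5.IsTestFn 𝔫 τ (rtr503 (z ^ t) φ) := by
  have hcomm : ∀ g : G K, g * z ^ t = z ^ t * g := B981.H519.scalarUnif_zpow_comm519 hz t
  have hmove : ∀ g h : G K, g * h * z ^ t = g * z ^ t * h := by
    intro g h
    rw [mul_assoc, hcomm h, ← mul_assoc]
  refine ⟨hφ.ktype, ?_, ?_, ?_, ⟨?_, ?_, ?_, ?_⟩⟩
  · exact hφ.cont.comp (continuous_mul_const (z ^ t))
  · exact hφ.supp.comp_homeomorph (Homeomorph.mulRight (z ^ t))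
  · intro n h hfin hsm g
    have h0 := hφ.smooth n h hfin hsm (g * z ^ t)
    have e : (fun s => rtr503 (z ^ t) φ (g * h s)) = fun s => φ (g * z ^ t * h s) := by
      funext s
      rw [rtr_apply503, hmove]
    rw [e]
    exact h0
  · intro u hu g
    rw [rtr_apply503, rtr_apply503, hmove]
    exact hφ.inv.level_right u hu (g * z ^ t)
  · intro u hu g
    rw [rtr_apply503, rtr_apply503, mul_assoc]
    exact hφ.inv.level_left u hu (g * z ^ t)
  · intro w k hk g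
    rw [rtr_apply503, rtr_apply503, hmove]
    exact hφ.inv.arch_right w k hk (g * z ^ t)
  · intro w k hk g
    rw [rtr_apply503, rtr_apply503, mul_assoc]
    exact hφ.inv.arch_left w k hk (g * z ^ t)

end TrTest

/-! ## 2. The pure tensors over `ℚ` -/

section PureQ

theorem pureQ_pos846 {T : Finset (HeightOneSpectrum (𝓞 ℚ))}
    (f₀ : ∀ v : HeightOneSpectrum (𝓞 ℚ), GL (Fin 2) (v.adicCompletion ℚ) → ℂ)
    (Fr : GL (Fin 2) ℝ → ℂ) {h : G ℚ} (hO : OutT305 T h) :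
    pureQ298 T f₀ Fr h = (∏ v ∈ T, f₀ v (finGL305 v h)) * Fr (reGLQ298 h) :=
  if_pos hO

theorem pureQ_neg846 {T : Finset (HeightOneSpectrum (𝓞 ℚ))}
    (f₀ : ∀ v : HeightOneSpectrum (𝓞 ℚ), GL (Fin 2) (v.adicCompletion ℚ) → ℂ)
    (Fr : GL (Fin 2) ℝ → ℂ) {h : G ℚ} (hO : ¬ OutT305 T h) :
    pureQ298 T f₀ Fr h = 0 :=
  if_neg hO

/-- The real component of an element which is trivial at infinity. -/
theorem reGL_eq_one846 {z : G ℚ} (hz : TrivAtInf Rat.infinitePlace z) : reGLQ298 z = 1 := by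
  apply Units.ext
  ext i j
  show (InfinitePlace.Completion.extensionEmbeddingOfIsReal Rat.isReal_infinitePlace)
      (((z : Matrix (Fin 2) (Fin 2) (Adl ℚ)) i j).1 Rat.infinitePlace)
        = (1 : Matrix (Fin 2) (Fin 2) ℝ) i j
  rw [hz i j]
  by_cases hij : i = j
  · rw [hij, Matrix.one_apply_eq, Matrix.one_apply_eq, map_one]
  · rw [Matrix.one_apply_ne hij, Matrix.one_apply_ne hij, map_zero]

/-- **PURE-EXT for `extU503` over `ℚ`.** -/
theorem pureQ_extU846 {T S : Finset (HeightOneSpectrum (𝓞 ℚ))} (hTS : T ⊆ S)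
    (f₀ : ∀ v : HeightOneSpectrum (𝓞 ℚ), GL (Fin 2) (v.adicCompletion ℚ) → ℂ)
    (Fr : GL (Fin 2) ℝ → ℂ) (y : G ℚ) :
    pureQ298 S (extU503 T f₀) Fr y = pureQ298 T f₀ Fr y := by
  classical
  by_cases hOT : OutT305 T y
  · have hOT' := (H802.outT_iff802 T y).1 hOT
    have hOS : OutT305 S y := fun v hv => hOT v (fun hvT => hv (hTS hvT))
    rw [pureQ_pos846 _ _ hOS, pureQ_pos846 _ _ hOT]
    congr 1
    rw [← Finset.prod_subset hTS (fun v _ hvT => by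
      rw [H802.extU_notMem802 f₀ hvT]
      exact H802.unitFn_pos802 (hOT' v hvT))]
    exact Finset.prod_congr rfl (fun v hv => by rw [H802.extU_mem802 f₀ hv])
  · rw [pureQ_neg846 _ _ hOT]
    by_cases hOS : OutT305 S y
    · rw [pureQ_pos846 _ _ hOS]
      have hex : ∃ v : HeightOneSpectrum (𝓞 ℚ), v ∉ T ∧ ¬ T6.InU 0 (finGL305 v y) := by
        by_contra hcon
        apply hOT
        rw [H802.outT_iff802]
        intro v hv
        by_contra hv'
        exact hcon ⟨v, hv, hv'⟩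
      obtain ⟨v, hvT, hv⟩ := hex
      have hvS : v ∈ S := by
        by_contra hvS
        exact hv ((H802.outT_iff802 S y).1 hOS v hvS)
      have h0 : ∏ v' ∈ S, extU503 T f₀ v' (finGL305 v' y) = 0 := by
        refine Finset.prod_eq_zero hvS ?_
        rw [H802.extU_notMem802 f₀ hvT]
        exact H802.unitFn_neg802 hv
      rw [h0, zero_mul]
    · exact pureQ_neg846 _ _ hOS

open Classical in
/-- **PURE-SHIFT over `ℚ`.** -/
theorem pureShiftQ846 (T P : Finset (HeightOneSpectrum (𝓞 ℚ)))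
    (f₀ : ∀ v : HeightOneSpectrum (𝓞 ℚ), GL (Fin 2) (v.adicCompletion ℚ) → ℂ)
    (Fr : GL (Fin 2) ℝ → ℂ) (v : HeightOneSpectrum (𝓞 ℚ)) (hvP : v ∈ P)
    (z : G ℚ) (hz : IsScalarUniformizerAt v z) (t : ℤ) (h : G ℚ) :
    pureQ298 (T ∪ P) (trC503 v (finGL305 v (z ^ t)) (extU503 T f₀)) Fr h
      = pureQ298 T f₀ Fr (h * z ^ t) := by
  obtain ⟨⟨hzinf, hzfin⟩, -⟩ := hz
  have hvS : v ∈ T ∪ P := Finset.mem_union_right T hvP
  have hfin : ∀ v' : HeightOneSpectrum (𝓞 ℚ), v' ≠ v →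
      finGL305 v' (h * z ^ t) = finGL305 v' h := by
    intro v' hv'
    rw [map_mul, map_zpow, H802.finGL_eq_one802 (hzfin v' hv'), one_zpow, mul_one]
  have hinf : reGLQ298 (h * z ^ t) = reGLQ298 h := by
    rw [map_mul, map_zpow, reGL_eq_one846 (hzinf Rat.infinitePlace), one_zpow, mul_one]
  have hcomp : ∀ v' : HeightOneSpectrum (𝓞 ℚ),
      trC503 v (finGL305 v (z ^ t)) (extU503 T f₀) v' (finGL305 v' h)
        = extU503 T f₀ v' (finGL305 v' (h * z ^ t)) := by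
    intro v'
    by_cases hv' : v' = v
    · subst hv'
      show Function.update (extU503 T f₀) v'
          (fun x => extU503 T f₀ v' (x * finGL305 v' (z ^ t))) v' (finGL305 v' h) = _
      rw [Function.update_self, map_mul]
    · show Function.update (extU503 T f₀) v
          (fun x => extU503 T f₀ v (x * finGL305 v (z ^ t))) v' (finGL305 v' h) = _
      rw [Function.update_of_ne hv', hfin v' hv']
  have hOut : OutT305 (T ∪ P) h ↔ OutT305 (T ∪ P) (h * z ^ t) := by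
    rw [H802.outT_iff802, H802.outT_iff802]
    refine forall_congr' fun v' => imp_congr_right fun hv'S => ?_
    have hne : v' ≠ v := fun e => hv'S (e ▸ hvS)
    rw [hfin v' hne]
  have hL : pureQ298 (T ∪ P) (trC503 v (finGL305 v (z ^ t)) (extU503 T f₀)) Fr h
      = pureQ298 (T ∪ P) (extU503 T f₀) Fr (h * z ^ t) := by
    by_cases hO : OutT305 (T ∪ P) h
    · rw [pureQ_pos846 _ _ hO, pureQ_pos846 _ _ (hOut.1 hO), hinf]
      congr 1
      exact Finset.prod_congr rfl (fun v' _ => hcomp v')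
    · rw [pureQ_neg846 _ _ hO, pureQ_neg846 _ _ (fun hO' => hO (hOut.2 hO'))]
  rw [hL]
  exact pureQ_extU846 Finset.subset_union_left f₀ Fr (h * z ^ t)

end PureQ

/-! ## 3. The prime number under a place of `ℚ` -/

section Prime

/-- The norm of the place of `ℚ` which contains the prime number `p` is `p`. -/
theorem absNorm_eq_prime846 {v : HeightOneSpectrum (𝓞 ℚ)} {p : ℕ} (hp : p.Prime)
    (hpv : ((p : ℕ) : 𝓞 ℚ) ∈ v.asIdeal) : Ideal.absNorm v.asIdeal = p := by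
  have hspan : v.asIdeal = Ideal.span {((p : ℕ) : 𝓞 ℚ)} := by
    ext x
    rw [H546.mem_iff_dvd546c v.isPrime.ne_top hp hpv, Ideal.mem_span_singleton]
    constructor
    · rintro ⟨c, hc⟩
      refine ⟨Rat.ringOfIntegersEquiv.symm c, ?_⟩
      apply Rat.ringOfIntegersEquiv.injective
      rw [hc, map_mul, RingEquiv.apply_symm_apply, map_natCast]
    · rintro ⟨c, rfl⟩
      rw [map_mul, map_natCast]
      exact ⟨Rat.ringOfIntegersEquiv c, rfl⟩
  rw [hspan, Ideal.absNorm_span_singleton]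
  have h1 : ((p : ℕ) : 𝓞 ℚ) = algebraMap ℤ (𝓞 ℚ) (p : ℤ) := by simp
  rw [h1, Algebra.norm_algebraMap, RingOfIntegers.rank, Module.finrank_self, pow_one]
  exact Int.natAbs_natCast p

end Prime

/-! ## 4. The local shape of the shifted triple -/

section Shape

variable {F : Type} [Field F] [NumberField F]

open Classical in
/-- **The local condition of the shifted components** (`LocAQ801`). -/
theorem locAQ_new846 (hSh : SphShiftC503) (hUn : UnitSphC503) (c : ℂ)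
    {T₀ T : Finset (HeightOneSpectrum (𝓞 ℚ))} {T' : Finset (HeightOneSpectrum (𝓞 F))}
    {n : HeightOneSpectrum (𝓞 F) → ℕ} {m : HeightOneSpectrum (𝓞 ℚ) → ℕ}
    (hT₀ : T₀ ⊆ T) (hOver : IsOver305 T T')
    {φ₀ : ∀ w : HeightOneSpectrum (𝓞 F), GL (Fin 2) (w.adicCompletion F) → ℂ}
    {Φ : InfinitePlace F → GL (Fin 2) ℂ → ℂ}
    {f₀ : ∀ v : HeightOneSpectrum (𝓞 ℚ), GL (Fin 2) (v.adicCompletion ℚ) → ℂ}
    {F0 F1 : GL (Fin 2) ℝ → ℂ}
    (hloc : LocAQ801 c T₀ n m T φ₀ Φ f₀ F0 F1)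
    {v : HeightOneSpectrum (𝓞 ℚ)} {w : HeightOneSpectrum (𝓞 F)} {fr : ℕ}
    (hv0 : v ∉ T₀) (hvw : PlaceOver ℚ F v w)
    (hinert : (∀ w' : HeightOneSpectrum (𝓞 F), PlaceOver ℚ F v w' → w' = w) → fr = 2)
    (hsplit : ∀ u : ℕ → HeightOneSpectrum (𝓞 F), (∀ j : ℕ, PlaceOver ℚ F v (u j)) →
      (∀ j j' : ℕ, j < 2 → j' < 2 → u j = u j' → j = j') →
      fr = 1 ∧ ∃ j : ℕ, j < 2 ∧ u j = w)
    {cw : GL (Fin 2) (w.adicCompletion F)} {cw₀ : w.adicCompletion F}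
    (hcw₀ : Valued.v cw₀ = WithZero.exp (-1 : ℤ))
    (hcw : (cw : Matrix (Fin 2) (Fin 2) (w.adicCompletion F)) = Matrix.diagonal (fun _ => cw₀))
    {cv : GL (Fin 2) (v.adicCompletion ℚ)} {cv₀ : v.adicCompletion ℚ}
    (hcv₀ : Valued.v cv₀ = WithZero.exp (-1 : ℤ))
    (hcv : (cv : Matrix (Fin 2) (Fin 2) (v.adicCompletion ℚ)) = Matrix.diagonal (fun _ => cv₀))
    (t : ℤ) :
    LocAQ801 c T₀ n m (T ∪ {v}) (trC503 w (cw ^ t) (extU503 T' φ₀)) Φ
      (trC503 v (cv ^ (t * fr)) (extU503 T f₀)) F0 F1 := by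
  obtain ⟨h1, h2, h3, h4⟩ := hloc
  refine ⟨?_, ?_, ?_, h4⟩
  · intro v' hv'
    have hne : v' ≠ v := fun h => hv0 (h ▸ hv')
    rw [trC_of_ne503 _ _ _ hne, extU_of_mem503 f₀ (hT₀ hv')]
    exact h1 v' hv'
  · intro v' hv' w' hw'
    have hne : w' ≠ w := fun h =>
      hv0 ((H557.placeOver_unique_557 (h ▸ hw') hvw) ▸ hv')
    have hwT : w' ∈ T' := (hOver w').2 ⟨v', hT₀ hv', hw'⟩
    rw [trC_of_ne503 _ _ _ hne, extU_of_mem503 φ₀ hwT]
    exact h2 v' hv' w' hw'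
  · exact sphOut_new503 hSh hUn 2 hOver h3 hv0 hvw hinert hsplit hcw₀ hcw hcv₀ hcv t

open Classical in
/-- **The shifted triple is an average of pure tensors with the local condition `LocAQ801`.** -/
theorem shapeQ_new846 (hT' : TrTestC503 F) (hSh : SphShiftC503) (hUn : UnitSphC503)
    (hPu' : PureShiftC503 F) (𝔫 : Ideal (𝓞 ℚ)) (c : ℂ)
    {T₀ : Finset (HeightOneSpectrum (𝓞 ℚ))}
    {n : HeightOneSpectrum (𝓞 F) → ℕ} {m : HeightOneSpectrum (𝓞 ℚ) → ℕ}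
    {φ : G F → ℂ} {f0 f1 : G ℚ → ℂ}
    (hshape : IsAvgPureQ801 (upI (K' := F) 𝔫) 𝔫 T₀ (LocAQ801 c T₀ n m) 1 φ f0 f1)
    {v : HeightOneSpectrum (𝓞 ℚ)} {w : HeightOneSpectrum (𝓞 F)} {fr : ℕ}
    (P : Finset (HeightOneSpectrum (𝓞 F)))
    (hP : ∀ w' : HeightOneSpectrum (𝓞 F), w' ∈ P ↔ PlaceOver ℚ F v w')
    (hv0 : v ∉ T₀) (hvw : PlaceOver ℚ F v w)
    (hinert : (∀ w' : HeightOneSpectrum (𝓞 F), PlaceOver ℚ F v w' → w' = w) → fr = 2)
    (hsplit : ∀ u : ℕ → HeightOneSpectrum (𝓞 F), (∀ j : ℕ, PlaceOver ℚ F v (u j)) →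
      (∀ j j' : ℕ, j < 2 → j' < 2 → u j = u j' → j = j') →
      fr = 1 ∧ ∃ j : ℕ, j < 2 ∧ u j = w)
    {z' : G F} (hz' : IsScalarUniformizerAt w z') {z : G ℚ} (hz : IsScalarUniformizerAt v z)
    (t : ℤ) :
    IsAvgPureQ801 (upI (K' := F) 𝔫) 𝔫 T₀ (LocAQ801 c T₀ n m) 1
      (rtr503 (z' ^ t) φ) (rtr503 (z ^ (t * fr)) f0) (rtr503 (z ^ (t * fr)) f1) := by
  obtain ⟨Ω, i1, i2, i3, i4, i5, i6, ν, i7, T, T', φ₀, Φc, f₀, F0, F1, hA, hB1, hB2, hB3,
    hC1, hC2, hC3, ⟨C', hC', hD1⟩, ⟨C0, hC0, hD2⟩, ⟨C1, hC1', hD3⟩, hE1, hE2, hE3⟩ := hshape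
  obtain ⟨cw₀, hcw₀, hcw⟩ := finGL_unif503 hz'
  obtain ⟨cv₀, hcv₀, hcv⟩ := finGL_unif503 hz
  have hwP : w ∈ P := (hP w).2 hvw
  have hvS : v ∈ ({v} : Finset (HeightOneSpectrum (𝓞 ℚ))) := Finset.mem_singleton_self v
  -- the key identities
  have hup : ∀ (a : Ω) (h : G F),
      pure305 (T' a ∪ P) (trC503 w (finGL305 w (z' ^ t)) (extU503 (T' a) (φ₀ a))) (Φc a) h
        = pure305 (T' a) (φ₀ a) (Φc a) (h * z' ^ t) := fun a h =>
    hPu' (T' a) P (φ₀ a) (Φc a) w hwP z' hz' t h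
  have hdn : ∀ (Fr : Ω → GL (Fin 2) ℝ → ℂ) (a : Ω) (h : G ℚ),
      pureQ298 (T a ∪ {v}) (trC503 v (finGL305 v (z ^ (t * fr))) (extU503 (T a) (f₀ a)))
          (Fr a) h
        = pureQ298 (T a) (f₀ a) (Fr a) (h * z ^ (t * fr)) := fun Fr a h =>
    pureShiftQ846 (T a) {v} (f₀ a) (Fr a) v hvS z hz (t * fr) h
  -- the three kinds of clauses downstairs, for the two archimedean components
  have htest : ∀ (τ : G ℚ → ℂ) (Fr : Ω → GL (Fin 2) ℝ → ℂ),
      (∀ a : Ω, T5.IsTestFn 𝔫 τ (fun h => (1 : ℂ) * pureQ298 (T a) (f₀ a) (Fr a) h)) →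
      ∀ a : Ω, T5.IsTestFn 𝔫 τ (fun h => (1 : ℂ) * pureQ298 (T a ∪ {v})
        (trC503 v (finGL305 v (z ^ (t * fr))) (extU503 (T a) (f₀ a))) (Fr a) h) := by
    intro τ Fr hB a
    have h : (fun h => (1 : ℂ) * pureQ298 (T a ∪ {v})
          (trC503 v (finGL305 v (z ^ (t * fr))) (extU503 (T a) (f₀ a))) (Fr a) h)
        = rtr503 (z ^ (t * fr)) (fun h => (1 : ℂ) * pureQ298 (T a) (f₀ a) (Fr a) h) :=
      funext fun h => by rw [rtr_apply503, hdn Fr a h]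
    rw [h]
    exact trTestTy846 𝔫 τ hz (t * fr) (hB a)
  have hcont : ∀ Fr : Ω → GL (Fin 2) ℝ → ℂ,
      Continuous (fun p : Ω × G ℚ => (1 : ℂ) * pureQ298 (T p.1) (f₀ p.1) (Fr p.1) p.2) →
      Continuous (fun p : Ω × G ℚ => (1 : ℂ) * pureQ298 (T p.1 ∪ {v})
        (trC503 v (finGL305 v (z ^ (t * fr))) (extU503 (T p.1) (f₀ p.1))) (Fr p.1) p.2) := by
    intro Fr hC
    have h : (fun p : Ω × G ℚ => (1 : ℂ) * pureQ298 (T p.1 ∪ {v})
          (trC503 v (finGL305 v (z ^ (t * fr))) (extU503 (T p.1) (f₀ p.1))) (Fr p.1) p.2)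
        = (fun p : Ω × G ℚ => (1 : ℂ) * pureQ298 (T p.1) (f₀ p.1) (Fr p.1) p.2)
            ∘ fun p : Ω × G ℚ => (p.1, p.2 * z ^ (t * fr)) :=
      funext fun p => by
        show (1 : ℂ) * _ = (1 : ℂ) * _
        rw [hdn Fr p.1 p.2]
    rw [h]
    exact hC.comp (continuous_fst.prodMk (continuous_snd.mul continuous_const))
  have hsupp : ∀ Fr : Ω → GL (Fin 2) ℝ → ℂ,
      (∃ C : Set (G ℚ), IsCompact C ∧
        ∀ (a : Ω) (h : G ℚ), pureQ298 (T a) (f₀ a) (Fr a) h ≠ 0 → h ∈ C) →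
      ∃ C : Set (G ℚ), IsCompact C ∧
        ∀ (a : Ω) (h : G ℚ), pureQ298 (T a ∪ {v})
          (trC503 v (finGL305 v (z ^ (t * fr))) (extU503 (T a) (f₀ a))) (Fr a) h ≠ 0 →
          h ∈ C := by
    rintro Fr ⟨C, hC, hD⟩
    refine ⟨(fun g : G ℚ => g * (z ^ (t * fr))⁻¹) '' C,
      hC.image (continuous_id.mul continuous_const), ?_⟩
    intro a h hne
    rw [hdn Fr a h] at hne
    exact ⟨h * z ^ (t * fr), hD a _ hne, by simp⟩
  have hint : ∀ (Fr : Ω → GL (Fin 2) ℝ → ℂ) (f : G ℚ → ℂ),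
      (∀ h : G ℚ, f h = ∫ a, (1 : ℂ) * pureQ298 (T a) (f₀ a) (Fr a) h ∂ν) →
      ∀ h : G ℚ, rtr503 (z ^ (t * fr)) f h = ∫ a, (1 : ℂ) * pureQ298 (T a ∪ {v})
        (trC503 v (finGL305 v (z ^ (t * fr))) (extU503 (T a) (f₀ a))) (Fr a) h ∂ν := by
    intro Fr f hE h
    rw [rtr_apply503, hE (h * z ^ (t * fr))]
    refine integral_congr_ae (Filter.Eventually.of_forall fun a => ?_)
    show (1 : ℂ) * _ = (1 : ℂ) * _
    rw [hdn Fr a h]
  refine ⟨Ω, i1, i2, i3, i4, i5, i6, ν, i7, fun a => T a ∪ {v}, fun a => T' a ∪ P,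
    fun a => trC503 w (finGL305 w (z' ^ t)) (extU503 (T' a) (φ₀ a)), Φc,
    fun a => trC503 v (finGL305 v (z ^ (t * fr))) (extU503 (T a) (f₀ a)), F0, F1,
    ?_, ?_, htest _ F0 hB2, htest _ F1 hB3, ?_, hcont F0 hC2, hcont F1 hC3, ?_,
    hsupp F0 ⟨C0, hC0, hD2⟩, hsupp F1 ⟨C1, hC1', hD3⟩, ?_, hint F0 f0 hE2, hint F1 f1 hE3⟩
  · -- the local conditions
    intro a
    obtain ⟨hT₀, hOver, hloc⟩ := hA a
    refine ⟨fun x hx => Finset.mem_union_left _ (hT₀ hx), ?_, ?_⟩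
    · intro w'
      constructor
      · intro hw'
        rcases Finset.mem_union.1 hw' with h | h
        · obtain ⟨v', hv', hvw'⟩ := (hOver w').1 h
          exact ⟨v', Finset.mem_union_left _ hv', hvw'⟩
        · exact ⟨v, Finset.mem_union_right _ hvS, (hP w').1 h⟩
      · rintro ⟨v', hv', hvw'⟩
        rcases Finset.mem_union.1 hv' with h | h
        · exact Finset.mem_union_left _ ((hOver w').2 ⟨v', h, hvw'⟩)
        · have hvv : v' = v := Finset.mem_singleton.1 h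
          exact Finset.mem_union_right _ ((hP w').2 (hvv ▸ hvw'))
    · have h1 : finGL305 w (z' ^ t) = finGL305 w z' ^ t := map_zpow _ _ _
      have h2 : finGL305 v (z ^ (t * fr)) = finGL305 v z ^ (t * fr) := map_zpow _ _ _
      rw [h1, h2]
      exact locAQ_new846 hSh hUn c hT₀ hOver hloc hv0 hvw hinert hsplit hcw₀ hcw hcv₀ hcv t
  · intro a
    have h : pure305 (T' a ∪ P) (trC503 w (finGL305 w (z' ^ t)) (extU503 (T' a) (φ₀ a))) (Φc a)
        = rtr503 (z' ^ t) (pure305 (T' a) (φ₀ a) (Φc a)) := funext fun h => hup a h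
    rw [h]
    exact hT' _ w z' hz' t _ (hB1 a)
  · have h : (fun p : Ω × G F => pure305 (T' p.1 ∪ P)
          (trC503 w (finGL305 w (z' ^ t)) (extU503 (T' p.1) (φ₀ p.1))) (Φc p.1) p.2)
        = (fun p : Ω × G F => pure305 (T' p.1) (φ₀ p.1) (Φc p.1) p.2)
            ∘ fun p : Ω × G F => (p.1, p.2 * z' ^ t) := funext fun p => hup p.1 p.2
    rw [h]
    exact hC1.comp (continuous_fst.prodMk (continuous_snd.mul continuous_const))
  · refine ⟨(fun g : G F => g * (z' ^ t)⁻¹) '' C',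
      hC'.image (continuous_id.mul continuous_const), ?_⟩
    intro a h hne
    rw [hup a h] at hne
    exact ⟨h * z' ^ t, hD1 a _ hne, by simp⟩
  · intro h
    rw [rtr_apply503, hE1 (h * z' ^ t)]
    exact integral_congr_ae (Filter.Eventually.of_forall fun a => (hup a h).symm)

end Shape

/-! ## 5. The step -/

section Top

variable {F : Type} [Field F] [NumberField F]

/-- A place outside `S'` does not divide the base level. -/
theorem not_dvd_baseQ846 {B : L2QBase962 F} {𝔫 : Ideal (𝓞 ℚ)} (hlev : CQ57.IsLevQ57 B 𝔫)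
    {w : HeightOneSpectrum (𝓞 F)} (hwS : w ∉ B.S') : ¬ w.asIdeal ∣ B.𝔑₀ := by
  intro h
  apply hwS
  rw [hlev.mem_S'_g]
  exact dvd_trans h (Ideal.dvd_iff_le.2 hlev.level_g)

/-- The prime under a place outside `S'` does not divide the level. -/
theorem not_dvd_levelQ846 {B : L2QBase962 F} {𝔫 : Ideal (𝓞 ℚ)} (hlev : CQ57.IsLevQ57 B 𝔫)
    {v : HeightOneSpectrum (𝓞 ℚ)} {w : HeightOneSpectrum (𝓞 F)} (hvw : PlaceOver ℚ F v w)
    (hwS : w ∉ B.S') : ¬ v.asIdeal ∣ 𝔫 := by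
  intro h
  apply hwS
  rw [hlev.mem_S'_g, Ideal.dvd_iff_le]
  show Ideal.map (algebraMap (𝓞 ℚ) (𝓞 F)) 𝔫 ≤ w.asIdeal
  rw [Ideal.map_le_iff_le_comap, ← (H557.placeOver_iff_557 v w).1 hvw]
  exact Ideal.dvd_iff_le.1 h

/-- **The shifted triples are good**, for every integer shift. -/
theorem coreQ846 (hS3 : HasSqrtNegThree F) (hIQ : IsImagQuad F)
    {Φ : HeckeEigensystem F ℂ} {B : L2Q.H60.L2QBase F}
    (hB : L2Q.H60.IsL2QBase Φ B) (hRam : L2Q.H60.IsRamQ60 B) {𝔫 : Ideal (𝓞 ℚ)}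
    (hlev : CQ57.IsLevQ57 (toBase962_732 B) 𝔫) {T₀ : Finset (HeightOneSpectrum (𝓞 ℚ))}
    {n n₀ : HeightOneSpectrum (𝓞 F) → ℕ} {m : HeightOneSpectrum (𝓞 ℚ) → ℕ}
    (hexp : CQ57.IsLevFnQ57 (toBase962_732 B) 𝔫 T₀ n n₀ m) (c : ℂ)
    {w : HeightOneSpectrum (𝓞 F)} (hwS : w ∉ B.S')
    {φ : G F → ℂ} {f : QWt → G ℚ → ℂ}
    (hgood : IsGoodAQ484 (toBase962_732 B) 𝔫 c T₀ n m φ f) :
    ∃ (v : HeightOneSpectrum (𝓞 ℚ)) (fr : ℕ) (z' : G F) (z : G ℚ),
      HasResDeg ℚ F v w fr ∧ IsScalarUniformizerAt w z' ∧ IsScalarUniformizerAt v z ∧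
      ¬ v.asIdeal ∣ 𝔫 ∧
      ∀ t : ℤ, IsGoodAQ484 (toBase962_732 B) 𝔫 c T₀ n m (rtr503 (z' ^ t) φ)
        (fun s => rtr503 (z ^ (t * fr)) (f s)) := by
  have hcyc : IsCycExt ℚ F 2 := H546.isCycExt_of_isImagQuad546c F hIQ
  have hRamIn : CQ57.RamInQ57 (toBase962_732 B) := H644.unramQC644 F hS3 hIQ Φ B hB hRam
  obtain ⟨v, fr, P, hres, -, hP, hunr⟩ := H963.placesC963 ℚ F 2 hcyc w
  have hvw : PlaceOver ℚ F v w := hres.1
  obtain ⟨hinert, hsplit⟩ := hunr (hRamIn v w hvw hwS)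
  obtain ⟨z', hz'⟩ := B981.H704.unifC704 F w
  obtain ⟨z, hz⟩ := B981.H704.unifC704 ℚ v
  have hvn : ¬ v.asIdeal ∣ 𝔫 := not_dvd_levelQ846 hlev hvw hwS
  have hv0 : v ∉ T₀ := fun h => hvn ((hexp.div v).1 h)
  have ho : ∀ j : ℕ, j < 2 → B.o j ≠ w := fun j _ h => hwS (h ▸ hB.orbit_level j)
  have hu : ∀ j : ℕ, j < 1 → (fun _ : ℕ => B.u) j ≠ v := by
    intro j _ h
    have h' : B.u = v := h
    obtain ⟨j', -, hj'⟩ := hB.orbit_all w (h' ▸ hvw)
    exact hwS (hj' ▸ hB.orbit_level j')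
  refine ⟨v, fr, z', z, hres, hz', hz, hvn, fun t => ?_⟩
  exact
    { up_test := B981.H519.trTestC519 F _ w z' hz' t φ hgood.up_test
      up_ek := ⟨(H290S.trEKC290 F _ _ hB.frame'.frame w z' hz' t φ).1 hgood.up_ek.1,
        (H290S.trEKC290 F _ _ hB.frame'.frame w z' hz' t φ).2 hgood.up_ek.2⟩
      dn_test := fun s => trTestTy846 𝔫 s.type hz (t * fr) (hgood.dn_test s)
      dn_ek := fun s =>
        ⟨(H290S.trEKC290 ℚ _ _ hB.frame.frame v z hz (t * fr) (f s)).1 (hgood.dn_ek s).1,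
          (H290S.trEKC290 ℚ _ _ hB.frame.frame v z hz (t * fr) (f s)).2 (hgood.dn_ek s).2⟩
      up_supp := H387S.trSuppC387 F 2 B.o w z' hz' ho t φ hgood.up_supp
      dn_supp := fun s =>
        H387S.trSuppC387 ℚ 1 (fun _ => B.u) v z hz hu (t * fr) (f s) (hgood.dn_supp s)
      shape := shapeQ_new846 (B981.H519.trTestC519 F) B981.H619.sphShiftC619
        B981.H619.unitSphC619 (H802.pureShiftC802 F) 𝔫 c hgood.shape P hP hv0 hvw hinert
        hsplit hz' hz t }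

/-- The eigenvalue of `S_w` in the base change of eigen-data over `ℚ`. -/
theorem bcB_eq846 {Φ : HeckeEigensystem F ℂ} {B : L2Q.H60.L2QBase F}
    (hB : L2Q.H60.IsL2QBase Φ B) {w : HeightOneSpectrum (𝓞 F)} (hwS : w ∉ B.S')
    {v : HeightOneSpectrum (𝓞 ℚ)} {fr : ℕ} (hres : HasResDeg ℚ F v w fr)
    {s : QWt} {c : EigData ℚ} {C : EigData F} (hBC : IsBCDataQ s c C B.S) :
    C.b w = c.b v ^ fr := by
  obtain ⟨p, hp, hpv⟩ := exists_prime_mem_place732 v
  have hpw : ((p : ℕ) : 𝓞 F) ∈ w.asIdeal := natCast_mem_of_placeOver732 hres.1 hpv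
  have hpS : p ∉ B.S := by
    intro h
    obtain ⟨-, w', hw'S, hpw'⟩ := hB.under_exact p h
    exact hwS (hB.fibre p hp w' w hpw' hpw hw'S)
  have habs : Ideal.absNorm w.asIdeal = p ^ fr := by
    rw [hres.2, absNorm_eq_prime846 hp hpv]
  exact (hBC.1 p hp hpS v hpv w fr hpw habs).2

variable (F)

/-- **NODE A.2 over `ℚ` = STEP-S**, verbatim, unconditional. -/
theorem stepSQC846 : PQ484.StepSQC484 F := by
  intro hS3 hIQ Φ B hB hRam 𝔫 hlev T₀ n n₀ m hexp c _ x hx hxout φ f hgood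
  obtain ⟨w, hxw⟩ := hx
  have hwS : w ∉ B.S' := by
    rcases hxw with h | h
    · rw [h] at hxout
      exact hxout
    · rw [h] at hxout
      exact hxout
  obtain ⟨v, fr, z', z, hres, hz', hz, hvn, hgood'⟩ :=
    coreQ846 hS3 hIQ hB hRam hlev hexp c hwS hgood
  have hwn : ¬ w.asIdeal ∣ B.𝔑₀ := not_dvd_baseQ846 hlev hwS
  rcases hxw with h | h
  · -- `x = S_w`
    refine ⟨(rtr503 (z' ^ (-1 : ℤ)) φ, fun s => rtr503 (z ^ ((-1 : ℤ) * fr)) (f s)),
      hgood' (-1), ?_⟩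
    refine ⟨?_, ?_⟩
    · intro χ C hχ y
      have h1 := (H290S.trOpC290 F _ _ hB.frame'.frame χ w (C.a w) (C.b w)
        (hχ.hecke w hwn) z' hz' 1 φ y).1
      rw [h, Gen.ev_S797]
      rw [Nat.cast_one, pow_one] at h1
      exact h1
    · intro s χ c' C hχ hBC y
      have hb : C.b w = c'.b v ^ fr := bcB_eq846 hB hwS hres hBC
      have h1 := (H290S.trOpC290 ℚ _ _ hB.frame.frame χ v (c'.a v) (c'.b v)
        (hχ.hecke v hvn) z hz fr (f s) y).1
      have he : ((-1 : ℤ) * (fr : ℤ)) = -((fr : ℕ) : ℤ) := by ring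
      rw [h, Gen.ev_S797, hb]
      show T5.Rconv B.R.μ (rtr503 (z ^ ((-1 : ℤ) * fr)) (f s)) χ y = _
      rw [he]
      exact h1
  · -- `x = S_w⁻¹`
    refine ⟨(rtr503 (z' ^ (1 : ℤ)) φ, fun s => rtr503 (z ^ ((1 : ℤ) * fr)) (f s)),
      hgood' 1, ?_⟩
    refine ⟨?_, ?_⟩
    · intro χ C hχ y
      have h1 := (H290S.trOpC290 F _ _ hB.frame'.frame χ w (C.a w) (C.b w)
        (hχ.hecke w hwn) z' hz' 1 φ y).2
      rw [h, Gen.ev_Sinv797]
      rw [Nat.cast_one, pow_one] at h1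
      exact h1
    · intro s χ c' C hχ hBC y
      have hb : C.b w = c'.b v ^ fr := bcB_eq846 hB hwS hres hBC
      have h1 := (H290S.trOpC290 ℚ _ _ hB.frame.frame χ v (c'.a v) (c'.b v)
        (hχ.hecke v hvn) z hz fr (f s) y).2
      have he : ((1 : ℤ) * (fr : ℤ)) = ((fr : ℕ) : ℤ) := by ring
      rw [h, Gen.ev_Sinv797, hb]
      show T5.Rconv B.R.μ (rtr503 (z ^ ((1 : ℤ) * fr)) (f s)) χ y = _
      rw [he]
      exact h1

end Top

/-- Verbatim check. -/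
example (F : Type) [Field F] [NumberField F] : Fermat.Agent.LT.T7.PQ484.StepSQC484 F :=
  stepSQC846 F

end Fermat.Agent.LT.T7.H846Q

end
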