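import Fermat.Agent.LT.T7.H40.ArchProjSpec

/-!
# Row LT, tower T7, node T7.L2.1, leaf P1d `RayLogC` (helper846)

OFF-MAIN.  `rayLogC846 : H40.RayLogC K` VERBATIM (ArchProjSpec of helper40, sha256 `34d7f842`,
byte-identical copy).  The ray generator is `Z (c, …, c)`, `c = log t₀ ≠ 0`: both elements have
the same local components, and an element of `GL₂(𝔸_K)` is determined by its local components
(`gl_ext846`).
-/

set_option autoImplicit false
set_option linter.unusedSectionVars false

open AutomorphicForm IsDedekindDomain NumberField MeasureTheory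

noncomputable section

namespace Fermat.Agent.LT.T7.H40.H846

open Fermat.Agent.LT.H556 Fermat.Agent.LT.H556.A0 Fermat.Agent.LT.T7

variable {K : Type} [Field K] [NumberField K]

/-- An adele is determined by its components. -/
theorem adl_ext846 {x y : Adl K}
    (h1 : ∀ w : InfinitePlace K, InfinitePlace.Completion.extensionEmbedding w (x.1 w)
      = InfinitePlace.Completion.extensionEmbedding w (y.1 w))
    (h2 : ∀ v : HeightOneSpectrum (𝓞 K), x.2 v = y.2 v) : x = y := by
  refine Prod.ext ?_ ?_
  · funext w
    exact (InfinitePlace.Completion.extensionEmbedding w).injective (h1 w)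
  · exact RestrictedProduct.ext _ _ h2

/-- An element of `GL₂(𝔸_K)` is determined by its local components. -/
theorem gl_ext846 {g g' : G K} (h1 : ∀ w : InfinitePlace K, infComp w g = infComp w g')
    (h2 : ∀ v : HeightOneSpectrum (𝓞 K), finComp v g = finComp v g') : g = g' := by
  apply Units.ext
  ext i j
  refine adl_ext846 (fun w => ?_) (fun v => ?_)
  · exact congrFun (congrFun (h1 w) i) j
  · exact congrFun (congrFun (h2 v) i) j

/-- **LEAF RAY-LOG.** -/
theorem rayLogC846 (K : Type) [Field K] [NumberField K] : RayLogC K := by
  intro Z hZ r hr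
  obtain ⟨hfin, t, ht, htn, hinf⟩ := hr
  have ht1 : t ≠ 1 := by
    intro h
    rw [h, one_pow] at htn
    norm_num at htn
  refine ⟨Real.log t, ?_, ?_⟩
  · intro h0
    rcases Real.log_eq_zero.1 h0 with h | h | h
    · exact ht.ne' h
    · exact ht1 h
    · linarith
  · refine gl_ext846 (fun w => ?_) (fun v => ?_)
    · rw [hZ.inf_comp, hinf w, Real.exp_log ht]
    · have h1 : finComp v (Z fun _ => Real.log t) = 1 := hZ.fin_triv _ v
      have h2 : finComp v r = 1 := hfin v
      rw [h1, h2]

example (K : Type) [Field K] [NumberField K] : RayLogC K := rayLogC846 K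

end Fermat.Agent.LT.T7.H40.H846

end
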